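import Fermat.Agent.ExpMeasure.Hermite
import Fermat.Agent.Transference.Basic
import Mathlib.Algebra.Order.Floor.Semiring
import Mathlib.Analysis.SpecificLimits.Normed
import Mathlib.RingTheory.Int.Basic

/-!
# Linear forms in rational powers of `e`

For distinct integers `k j` and `D > 0` fix a prime `q` exceeding `D` and every `|k j - k l|`, and
take `m` the least multiple of `q` with `H E ^ m ≤ (m - 1)!`. If `a` is primitive, some `a l` is
prime to `q`, and Hermite's integers for the roots `(k j - k l) / D`, `j ≠ l`, give a nonzero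
integer near `N D ^ ((n + 1) m) e ^ (-k l / D) ∑ a j e ^ (k j / D)`.
-/

set_option autoImplicit false

noncomputable section

open Polynomial Filter
open scoped Nat Topology

namespace FA.ExpMeasure

/-- A multiple `m` of `q` with `(m - 1)!` just above `H E ^ m`. -/
theorem exists_multiple {q : ℕ} (hq : 0 < q) {E η : ℝ} (hE : 1 ≤ E) (hη : 0 < η) :
    ∃ K : ℝ, 1 ≤ K ∧ ∀ H : ℝ, 1 ≤ H → ∃ m : ℕ, 0 < m ∧ q ∣ m ∧ H * E ^ m ≤ ((m - 1)! : ℝ) ∧
      ((m - 1)! : ℝ) ≤ K * H ^ (1 + η) ∧ E ^ m ≤ K * H ^ η := by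
  have hlim : ∀ F K : ℝ, 1 ≤ F → 0 < K →
      ∀ᶠ m : ℕ in atTop, K * F ^ m ≤ ((m - 1)! : ℝ) := fun F K hF hK => by
    have h := ((tendsto_add_atTop_iff_nat 0).2
      (FloorSemiring.tendsto_pow_div_factorial_atTop (F * 2))).eventually_le_const
      (show (0 : ℝ) < K⁻¹ by positivity)
    filter_upwards [h, eventually_gt_atTop 0] with m hm hm0
    rw [Nat.add_zero, div_le_iff₀ (Nat.cast_pos.2 (Nat.factorial_pos _)),
      ← Nat.mul_factorial_pred hm0.ne'] at hm
    have h2 : (m : ℝ) ≤ 2 ^ m := by exact_mod_cast Nat.lt_two_pow_self.le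
    refine le_of_mul_le_mul_left ?_ (show (0 : ℝ) < 2 ^ m by positivity)
    calc 2 ^ m * (K * F ^ m) = K * (F * 2) ^ m := by ring
      _ ≤ (m : ℝ) * (m - 1)! := by
          push_cast at hm
          rwa [inv_mul_eq_div, le_div_iff₀' hK] at hm
      _ ≤ 2 ^ m * (m - 1)! := by gcongr
  set D : ℝ := 2 ^ q * E with hD
  have hD1 : 1 ≤ D := one_le_mul_of_one_le_of_one_le (one_le_pow₀ one_le_two) hE
  set i := ⌈η⁻¹⌉₊ with hi
  obtain ⟨m0, hm0⟩ := eventually_atTop.1 (hlim (D ^ (i + 1)) 1 (one_le_pow₀ hD1) one_pos)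
  set K : ℝ := ((q - 1)! : ℝ) + E ^ q + D ^ m0 with hK
  have hKq : (1 : ℝ) ≤ (q - 1)! := Nat.one_le_cast.2 (Nat.factorial_pos _)
  have hEq : 0 ≤ E ^ q := pow_nonneg (zero_le_one.trans hE) q
  have hDm0 : 0 ≤ D ^ m0 := pow_nonneg (zero_le_one.trans hD1) m0
  refine ⟨K, by linarith, fun H hH => ?_⟩
  have hHη : 1 ≤ H ^ η := Real.one_le_rpow hH hη.le
  have hH1 : 1 ≤ H ^ (1 + η) := Real.one_le_rpow hH (by linarith)
  classical
  have hex : ∃ k : ℕ, 0 < k ∧ H * E ^ (q * k) ≤ ((q * k - 1)! : ℝ) := by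
    obtain ⟨m1, hm1⟩ := eventually_atTop.1 (hlim E H hE (by linarith))
    exact ⟨m1 + 1, Nat.succ_pos _, hm1 _ ((Nat.le_succ m1).trans
      (Nat.le_mul_of_pos_left _ hq))⟩
  obtain ⟨hk0, hk⟩ := Nat.find_spec hex
  set m := q * Nat.find hex with hm
  refine ⟨m, Nat.mul_pos hq hk0, dvd_mul_right _ _, hk, ?_⟩
  rcases (Nat.succ_le_of_lt hk0).eq_or_lt with h1 | h1
  · have hmq : m = q := by rw [hm, ← h1]; exact Nat.mul_one q
    rw [hmq]
    constructor
    · refine le_trans ?_ (le_mul_of_one_le_right (by positivity) hH1)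
      linarith
    · refine le_trans ?_ (le_mul_of_one_le_right (by positivity) hHη)
      linarith
  · have hprev : ¬(0 < Nat.find hex - 1 ∧
        H * E ^ (q * (Nat.find hex - 1)) ≤ ((q * (Nat.find hex - 1) - 1)! : ℝ)) :=
      Nat.find_min hex (by omega)
    rw [not_and, not_le, Nat.mul_sub, mul_one, ← hm] at hprev
    have hqm : q * 2 ≤ m := Nat.mul_le_mul_left q h1
    have hlt := hprev (by omega)
    have hstep : ((m - 1)! : ℝ) ≤ (2 ^ q) ^ m * ((m - q - 1)! : ℝ) := by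
      have h : (m - 1)! ≤ m ^ q * (m - q - 1)! := by
        have hd := Nat.factorial_mul_descFactorial (n := m - 1) (k := q) (by omega)
        rw [show m - 1 - q = m - q - 1 by omega] at hd
        calc (m - 1)! = (m - q - 1)! * (m - 1).descFactorial q := hd.symm
          _ ≤ (m - q - 1)! * (m - 1) ^ q := Nat.mul_le_mul_left _ (Nat.descFactorial_le_pow _ _)
          _ ≤ (m - q - 1)! * m ^ q := by gcongr; omega
          _ = _ := mul_comm _ _
      refine (Nat.cast_le.2 h).trans ?_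
      push_cast
      refine mul_le_mul_of_nonneg_right ?_ (Nat.cast_nonneg _)
      rw [← pow_mul, mul_comm q, pow_mul]
      exact pow_le_pow_left₀ (Nat.cast_nonneg _) (by exact_mod_cast Nat.lt_two_pow_self.le) _
    have hX : ((m - 1)! : ℝ) ≤ H * D ^ m := by
      refine hstep.trans ((mul_le_mul_of_nonneg_left hlt.le (by positivity)).trans ?_)
      rw [hD, mul_pow, mul_left_comm]
      gcongr
      exact Nat.sub_le _ _
    have hDm : D ^ m ≤ K * H ^ η := by
      rcases le_or_gt m m0 with hle | hgt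
      · refine (pow_le_pow_right₀ hD1 hle).trans
          (le_trans ?_ (le_mul_of_one_le_right (by positivity) hHη))
        linarith
      · have hbig := (hm0 m hgt.le).trans hX
        rw [one_mul, ← pow_mul, mul_comm (i + 1), pow_mul, pow_succ] at hbig
        have hDH : (D ^ m) ^ i ≤ H :=
          le_of_mul_le_mul_right hbig (pow_pos (by linarith) _)
        have hi1 : 1 ≤ η * i := by
          have := Nat.le_ceil η⁻¹
          rw [← div_le_iff₀' hη, one_div]
          exact this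
        refine le_trans ?_ (le_mul_of_one_le_left (by positivity) (show 1 ≤ K by linarith))
        refine le_trans ?_ (Real.rpow_le_rpow (by positivity) hDH hη.le)
        rw [← Real.rpow_natCast (D ^ m) i, ← Real.rpow_mul (by positivity), mul_comm]
        exact Real.self_le_rpow_of_one_le (one_le_pow₀ hD1) hi1
    refine ⟨hX.trans ?_, (pow_le_pow_left₀ (by linarith) ?_ m).trans hDm⟩
    · rw [Real.rpow_add (by linarith), Real.rpow_one, mul_left_comm]
      exact mul_le_mul_of_nonneg_left hDm (by linarith)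
    · exact le_mul_of_one_le_left (by linarith) (one_le_pow₀ one_le_two)

/-- The product of the `D X - (k j - k l)`, `j ≠ l`. -/
def nodes {n : ℕ} (k : Fin (n + 1) → ℤ) (D : ℕ) (l : Fin (n + 1)) : ℤ[X] :=
  ∏ j ∈ Finset.univ.erase l, (C (D : ℤ) * X - C (k j - k l))

theorem natDegree_nodes_le {n : ℕ} (k : Fin (n + 1) → ℤ) (D : ℕ) (l : Fin (n + 1)) :
    (nodes k D l).natDegree ≤ n := by
  refine (natDegree_prod_le _ _).trans ((Finset.sum_le_card_nsmul _ _ 1 fun j _ => ?_).trans_eq ?_)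
  · exact (natDegree_sub_le _ _).trans (max_le ((natDegree_C_mul_le _ _).trans natDegree_X_le)
      ((natDegree_C _).le.trans zero_le_one))
  · simp

theorem aeval_nodes_eq_zero {n : ℕ} {k : Fin (n + 1) → ℤ} {D : ℕ} (hD : D ≠ 0)
    {l j : Fin (n + 1)} (h : j ≠ l) :
    aeval (((k j : ℝ) - k l) / D) (nodes k D l) = 0 := by
  rw [nodes, map_prod]
  refine Finset.prod_eq_zero (Finset.mem_erase.2 ⟨h, Finset.mem_univ j⟩) ?_
  rw [map_sub, map_mul, aeval_C, aeval_C, aeval_X, algebraMap_int_eq, eq_intCast, eq_intCast,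
    Int.cast_natCast, mul_div_cancel₀ _ (Nat.cast_ne_zero.2 hD), Int.cast_sub, sub_self]

theorem not_dvd_eval_nodes_zero {n q : ℕ} (hq : q.Prime) {k : Fin (n + 1) → ℤ} (D : ℕ)
    (hkq : ∀ i j, |k i - k j| < q) (hk : Function.Injective k) (l : Fin (n + 1)) :
    ¬(q : ℤ) ∣ (nodes k D l).eval 0 := by
  rw [nodes, eval_prod]
  intro h
  obtain ⟨j, hj, hd⟩ := (Prime.dvd_finsetProd_iff (Nat.prime_iff_prime_int.1 hq) _).1 h
  rw [eval_sub, eval_mul, eval_X, mul_zero, eval_C, zero_sub, dvd_neg] at hd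
  exact Finset.ne_of_mem_erase hj (hk (sub_eq_zero.1 (Int.eq_zero_of_abs_lt_dvd hd (hkq j l))))

/-- `D ^ e g (s / D)` is an integer. -/
theorem exists_int_eq {g : ℤ[X]} {e : ℕ} (hg : g.natDegree ≤ e) (s : ℤ) {D : ℕ} (hD : D ≠ 0) :
    ∃ z : ℤ, (z : ℝ) = (D : ℝ) ^ e * aeval ((s : ℝ) / D) g := by
  refine ⟨∑ i ∈ Finset.range (e + 1), g.coeff i * s ^ i * (D : ℤ) ^ (e - i), ?_⟩
  rw [aeval_eq_sum_range' (Nat.lt_succ_of_le hg), Finset.mul_sum, Int.cast_sum]
  refine Finset.sum_congr rfl fun i hi => ?_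
  rw [zsmul_eq_mul, div_pow, ← Nat.sub_add_cancel (Nat.lt_succ_iff.1 (Finset.mem_range.1 hi))]
  simp only [Nat.add_sub_cancel, pow_add, Int.cast_mul, Int.cast_pow, Int.cast_natCast]
  field_simp

/-- A form with primitive coefficients is `≫ 1 / (E ^ m ((m - 1)!) ^ n)`. -/
theorem exists_lower_of_primitive {n q : ℕ} (hq : q.Prime) {k : Fin (n + 1) → ℤ}
    (hk : Function.Injective k) {D : ℕ} (hD : 0 < D) (hDq : D < q)
    (hkq : ∀ i j, |k i - k j| < q) :
    ∃ E : ℝ, 1 ≤ E ∧ ∀ (a : Fin (n + 1) → ℤ) (H : ℝ) (m : ℕ), (∃ l, ¬(q : ℤ) ∣ a l) →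
      (∀ j, |(a j : ℝ)| ≤ H) → 0 < m → q ∣ m → H * E ^ m ≤ ((m - 1)! : ℝ) →
      1 ≤ 2 * E ^ m * ((m - 1)! : ℝ) ^ n * |∑ j, (a j : ℝ) * Real.exp ((k j : ℝ) / D)| := by
  have hD1 : (1 : ℝ) ≤ D := Nat.one_le_cast.2 hD
  set S := ∑ j, |(k j : ℝ)| with hS
  have hS0 : 0 ≤ S := Finset.sum_nonneg fun j _ => abs_nonneg _
  have hkS : ∀ j, |(k j : ℝ)| ≤ S := fun j =>
    Finset.single_le_sum (fun j _ => abs_nonneg ((k j : ℝ))) (Finset.mem_univ j)
  choose A hA1 hA using fun l : Fin (n + 1) =>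
    exists_hermite (nodes k D l) (natDegree_nodes_le k D l) (R := 2 * S + 1) (by linarith)
  set C := (∑ l, A l) * (D : ℝ) ^ (n + 1) with hC
  have hAC : ∀ l, A l * (D : ℝ) ^ (n + 1) ≤ C := fun l => mul_le_mul_of_nonneg_right
    (Finset.single_le_sum (fun l _ => zero_le_one.trans (hA1 l)) (Finset.mem_univ l))
    (by positivity)
  have hC1 : 1 ≤ C :=
    (one_le_mul_of_one_le_of_one_le (hA1 0) (one_le_pow₀ hD1)).trans (hAC 0)
  set c := 2 * ((n : ℝ) + 1) * Real.exp S with hc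
  have hn0 : (0 : ℝ) ≤ n := Nat.cast_nonneg n
  have hc1 : 1 ≤ c := one_le_mul_of_one_le_of_one_le (by linarith) (Real.one_le_exp hS0)
  refine ⟨c * C, one_le_mul_of_one_le_of_one_le hc1 hC1,
    fun a H m ⟨l, hl⟩ haH hm hqm hfac => ?_⟩
  obtain ⟨N, hN, hNabs, g, hgd, hgroot⟩ := hA l m hm
  set M := (n + 1) * m with hM
  choose z hz using fun j : Fin (n + 1) => exists_int_eq hgd (k j - k l) hD.ne'
  set T : Fin (n + 1) → ℤ := fun j => if j = l then (D : ℤ) ^ M * N else m * z j with hT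
  set I := ∑ j, a j * T j with hI
  have hp := Nat.prime_iff_prime_int.1 hq
  have hI0 : I ≠ 0 := by
    intro h0
    rw [hI, ← Finset.add_sum_erase _ _ (Finset.mem_univ l)] at h0
    have hrest : (q : ℤ) ∣ ∑ j ∈ Finset.univ.erase l, a j * T j :=
      Finset.dvd_sum fun j hj => by
        rw [hT]
        dsimp only
        rw [if_neg (Finset.ne_of_mem_erase hj)]
        exact ((Int.natCast_dvd_natCast.2 hqm).mul_right _).mul_left _
    have hgl : (q : ℤ) ∣ a l * ((D : ℤ) ^ M * N) := by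
      have := dvd_neg.2 hrest
      rwa [← eq_neg_of_add_eq_zero_left h0, show T l = (D : ℤ) ^ M * N by simp [hT]] at this
    refine not_dvd_eval_nodes_zero hq D hkq hk l (hp.dvd_of_dvd_pow (n := m) ?_)
    have hqN : (q : ℤ) ∣ N := by
      refine ((hp.dvd_or_dvd ((hp.dvd_or_dvd hgl).resolve_left hl)).resolve_left fun h => ?_)
      exact (Nat.le_of_dvd hD (Int.natCast_dvd_natCast.1 (hp.dvd_of_dvd_pow h))).not_gt hDq
    have h := dvd_sub hqN ((Int.natCast_dvd_natCast.2 hqm).trans hN)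
    rwa [sub_sub_cancel] at h
  set L := ∑ j, (a j : ℝ) * Real.exp ((k j : ℝ) / D) with hL
  set V := (D : ℝ) ^ M * N * (Real.exp (-((k l : ℝ) / D)) * L) with hV
  have hev : V = ∑ j, (a j : ℝ) *
      ((D : ℝ) ^ M * (N * Real.exp (((k j : ℝ) - k l) / D))) := by
    rw [hV, hL, Finset.mul_sum, Finset.mul_sum]
    refine Finset.sum_congr rfl fun j _ => ?_
    rw [sub_div, sub_eq_add_neg, Real.exp_add]
    ring
  have hfac0 : (0 : ℝ) < ((m - 1)! : ℝ) := Nat.cast_pos.2 (Nat.factorial_pos _)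
  have hH0 : 0 ≤ H := (abs_nonneg _).trans (haH l)
  have hAl : 0 ≤ A l := zero_le_one.trans (hA1 l)
  have hACm : (D : ℝ) ^ M * A l ^ m ≤ C ^ m := by
    rw [hM, pow_mul, ← mul_pow, mul_comm]
    exact pow_le_pow_left₀ (by positivity) (hAC l) m
  have hr : ∀ j, |((k j : ℝ) - k l) / D| ≤ 2 * S + 1 := fun j => by
    rw [abs_div, Nat.abs_cast]
    refine (div_le_self (abs_nonneg _) hD1).trans ((abs_sub _ _).trans ?_)
    linarith [hkS j, hkS l]
  have herr : |V - I| ≤ 1 / 2 := by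
    rw [hev, hI, Int.cast_sum, ← Finset.sum_sub_distrib]
    refine (Finset.abs_sum_le_sum_abs _ _).trans ?_
    refine (Finset.sum_le_card_nsmul _ _ (H * (C ^ m / ((m - 1)! : ℝ))) fun j _ => ?_).trans ?_
    · rw [Int.cast_mul, ← mul_sub, abs_mul]
      refine mul_le_mul (haH j) ?_ (abs_nonneg _) hH0
      rw [hT]
      dsimp only
      split_ifs with h
      · rw [h, sub_self, zero_div, Real.exp_zero, mul_one, Int.cast_mul, Int.cast_pow,
          Int.cast_natCast, sub_self, abs_zero]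
        exact div_nonneg (pow_nonneg (zero_le_one.trans hC1) _) hfac0.le
      · rw [Int.cast_mul, Int.cast_natCast, hz, Int.cast_sub, mul_left_comm (m : ℝ), ← mul_sub,
          abs_mul, abs_pow, Nat.abs_cast]
        refine (mul_le_mul_of_nonneg_left (hgroot _ (aeval_nodes_eq_zero hD.ne' h) (hr j))
          (by positivity)).trans ?_
        rw [mul_div_assoc']
        exact div_le_div_of_nonneg_right hACm hfac0.le
    · rw [nsmul_eq_mul, Finset.card_univ, Fintype.card_fin, mul_div_assoc',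
        mul_div_assoc', div_le_iff₀ hfac0]
      have h : H * (2 * ((n : ℝ) + 1) * C ^ m) ≤ ((m - 1)! : ℝ) := by
        refine le_trans (mul_le_mul_of_nonneg_left ?_ hH0) hfac
        rw [mul_pow c C m]
        exact mul_le_mul_of_nonneg_right ((le_mul_of_one_le_right (by positivity)
          (Real.one_le_exp hS0)).trans (le_self_pow₀ hc1 hm.ne')) (by positivity)
      push_cast
      linarith
  have hI1 : (1 : ℝ) ≤ |(I : ℝ)| := by exact_mod_cast Int.one_le_abs hI0
  have h2 : 1 / 2 ≤ |V| := by linarith [abs_sub_abs_le_abs_sub (I : ℝ) V, abs_sub_comm V I]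
  have hexp : Real.exp (-((k l : ℝ) / D)) ≤ Real.exp S := Real.exp_le_exp.2
    ((neg_le_abs _).trans (by
      rw [abs_div, Nat.abs_cast]
      exact (div_le_self (abs_nonneg _) hD1).trans (hkS l)))
  have hNE : (D : ℝ) ^ M * |(N : ℝ)| ≤ C ^ m * ((m - 1)! : ℝ) ^ n :=
    (mul_le_mul_of_nonneg_left hNabs (by positivity)).trans (by
      rw [← mul_assoc]
      exact mul_le_mul_of_nonneg_right hACm (by positivity))
  have h3 : |V| ≤ (c * C) ^ m * ((m - 1)! : ℝ) ^ n * |L| := by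
    rw [hV, abs_mul, abs_mul, abs_mul, abs_pow, Nat.abs_cast, Real.abs_exp, ← mul_assoc _ _ |L|,
      mul_pow, mul_assoc (c ^ m) (C ^ m)]
    refine mul_le_mul_of_nonneg_right ?_ (abs_nonneg _)
    rw [mul_comm (c ^ m)]
    refine mul_le_mul hNE (hexp.trans ?_) (Real.exp_nonneg _) (by positivity)
    exact (le_mul_of_one_le_left (Real.exp_nonneg _) (by linarith)).trans
      (le_self_pow₀ hc1 hm.ne')
  linarith

/-- **The measure for distinct rational exponents.** -/
theorem exists_measure_forms {n : ℕ} (r : Fin (n + 1) → ℚ) (hr : Function.Injective r) {ε : ℝ}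
    (hε : 0 < ε) :
    ∃ c : ℝ, 0 < c ∧ ∀ a : Fin (n + 1) → ℤ, a ≠ 0 →
      c * ‖a‖ ^ (-((n : ℝ) + ε)) ≤ |∑ j, (a j : ℝ) * Real.exp (r j)| := by
  set D := ∏ j, (r j).den with hD
  have hD0 : 0 < D := Finset.prod_pos fun j _ => (r j).den_pos
  set k : Fin (n + 1) → ℤ :=
    fun j => (r j).num * ∏ i ∈ Finset.univ.erase j, ((r i).den : ℤ) with hk
  have hkr : ∀ j, (k j : ℝ) / D = (r j : ℝ) := fun j => by
    rw [hD, ← Finset.mul_prod_erase _ _ (Finset.mem_univ j), hk, Rat.cast_def]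
    push_cast
    exact mul_div_mul_right _ _ (Finset.prod_ne_zero_iff.2 fun i _ => Nat.cast_ne_zero.2
      (r i).den_ne_zero)
  have hkinj : Function.Injective k := fun i j h =>
    hr (Rat.cast_injective (α := ℝ) (by rw [← hkr, ← hkr, h]))
  obtain ⟨q, hq1, hq⟩ := Nat.exists_infinite_primes (D + 2 * (∑ j, (k j).natAbs) + 1)
  have hkq : ∀ i j, |k i - k j| < (q : ℤ) := fun i j => by
    have hi := Finset.single_le_sum (fun j _ => (k j).natAbs.zero_le) (Finset.mem_univ i)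
    have hj := Finset.single_le_sum (fun j _ => (k j).natAbs.zero_le) (Finset.mem_univ j)
    rw [abs_lt]
    omega
  obtain ⟨E, hE, hlow⟩ := exists_lower_of_primitive hq hkinj hD0 (by omega) hkq
  set η := ε / ((n : ℝ) + 1) with hη
  have hη0 : 0 < η := by positivity
  obtain ⟨K, hK, hmult⟩ := exists_multiple hq.pos hE hη0
  refine ⟨1 / (2 * K ^ (n + 1)), by positivity, fun p hp => ?_⟩
  obtain ⟨g, hg, hgcd⟩ := Finset.univ.extract_gcd p Finset.univ_nonempty
  set c := Finset.univ.gcd p with hc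
  have hc0 : c ≠ 0 := fun h0 =>
    hp (funext fun i => by rw [hg i (Finset.mem_univ i), h0, zero_mul]; rfl)
  have hc1 : (1 : ℝ) ≤ |(c : ℝ)| := by exact_mod_cast Int.one_le_abs hc0
  have hgle : ∀ j, |(g j : ℝ)| ≤ ‖p‖ := fun j => by
    refine le_trans ?_ (norm_le_pi_norm p j)
    rw [Int.norm_eq_abs, hg j (Finset.mem_univ j), Int.cast_mul, abs_mul]
    exact le_mul_of_one_le_left (abs_nonneg _) hc1
  set F : (Fin (n + 1) → ℤ) → ℝ := fun a => ∑ j, (a j : ℝ) * Real.exp ((k j : ℝ) / D) with hF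
  have hev : |F g| ≤ |F p| := by
    have e : F p = c * F g := by
      rw [hF]
      dsimp only
      rw [Finset.mul_sum]
      exact Finset.sum_congr rfl fun j hj => by rw [hg j hj, Int.cast_mul, mul_assoc]
    rw [e, abs_mul]
    exact le_mul_of_one_le_left (abs_nonneg _) hc1
  have hprim : ∃ l, ¬(q : ℤ) ∣ g l := by
    by_contra! hall
    have h : (q : ℤ) ∣ 1 := hgcd ▸ Finset.dvd_gcd fun j _ => hall j
    exact (Nat.prime_iff_prime_int.1 hq).not_isUnit (isUnit_of_dvd_one h)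
  have hH : 1 ≤ ‖p‖ := Transference.one_le_norm_intVector hp
  obtain ⟨m, hm, hqm, hfac, hfacK, hEK⟩ := hmult ‖p‖ hH
  have h : 1 ≤ 2 * E ^ m * ((m - 1)! : ℝ) ^ n * |F g| := hlow g ‖p‖ m hprim hgle hm hqm hfac
  have hX : (((m - 1)! : ℝ)) ^ n ≤ (K * ‖p‖ ^ (1 + η)) ^ n :=
    pow_le_pow_left₀ (Nat.cast_nonneg _) hfacK n
  have hexp : ‖p‖ ^ η * (‖p‖ ^ (1 + η)) ^ n = ‖p‖ ^ ((n : ℝ) + ε) := by
    rw [← Real.rpow_natCast, ← Real.rpow_mul (by linarith), ← Real.rpow_add (by linarith)]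
    congr 1
    rw [hη]
    field_simp
    ring
  have h1 : 1 ≤ 2 * K ^ (n + 1) * ‖p‖ ^ ((n : ℝ) + ε) * |F p| := by
    refine h.trans (mul_le_mul ?_ hev (abs_nonneg _) (by positivity))
    rw [← hexp, pow_succ', mul_assoc 2, mul_assoc 2]
    refine mul_le_mul_of_nonneg_left ((mul_le_mul hEK hX (by positivity)
      (by positivity)).trans_eq ?_) (by norm_num)
    rw [mul_pow]
    ring
  rw [show (∑ j, (p j : ℝ) * Real.exp (r j)) = F p by simp only [hF, hkr], Real.rpow_neg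
    (by linarith), div_mul_eq_mul_div, one_mul, div_le_iff₀ (by positivity),
    inv_le_iff_one_le_mul₀ (Real.rpow_pos_of_pos (by linarith) _)]
  linarith

end FA.ExpMeasure
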