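import Fermat.Agent.WirsingApprox.Polys
import Mathlib.Algebra.Polynomial.SumIteratedDerivative
import Mathlib.Analysis.Calculus.Deriv.Polynomial
import Mathlib.Analysis.Calculus.MeanValue
import Mathlib.Analysis.SpecialFunctions.ExpDeriv

/-!
# Hermite's approximations to powers of `e`, with exponents of every size

For `f : ℤ[X]` and `m ≥ 1` the sum of the derivatives of `X ^ (m - 1) f ^ m` gives an integer
`N ≡ f 0 ^ m (mod m)` of size `≪ A ^ m ((m - 1)!) ^ deg f` and a `g : ℤ[X]` with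
`|N e ^ r - m g(r)| ≤ A ^ m / (m - 1)!` at the real roots `r` of `f`.
-/

set_option autoImplicit false

noncomputable section

open Polynomial
open scoped Nat

namespace FA.ExpMeasure

/-- `(k m)! ≤ 2 ^ (k² m) (m!) ^ k`. -/
theorem factorial_mul_le (k m : ℕ) : (k * m)! ≤ 2 ^ (k * k * m) * m ! ^ k := by
  induction k with
  | zero => simp
  | succ k ih =>
    have h := Nat.choose_le_two_pow (k * m + m) m
    have h' := Nat.choose_mul_factorial_mul_factorial (Nat.le_add_left m (k * m))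
    rw [Nat.add_sub_cancel] at h'
    calc ((k + 1) * m)! = (k * m + m).choose m * m ! * (k * m)! := by rw [h', Nat.succ_mul]
      _ ≤ 2 ^ (k * m + m) * m ! * (2 ^ (k * k * m) * m ! ^ k) := by gcongr
      _ = 2 ^ (k * m + m + k * k * m) * m ! ^ (k + 1) := by ring
      _ ≤ 2 ^ ((k + 1) * (k + 1) * m) * m ! ^ (k + 1) := by
          gcongr
          · norm_num
          · nlinarith

/-- The value of `e ^ r F 0 - F r` is small when the polynomial is. -/
theorem abs_exp_mul_sub_le (p : ℝ[X]) {R B : ℝ} (hR : 0 ≤ R)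
    (hp : ∀ x, |x| ≤ R → |p.eval x| ≤ B) {r : ℝ} (hr : |r| ≤ R) :
    |Real.exp r * (sumIDeriv p).eval 0 - (sumIDeriv p).eval r| ≤
      Real.exp (2 * R) * R * B := by
  set F := sumIDeriv p with hF
  have hd : ∀ x : ℝ, HasDerivAt (fun y => Real.exp (-y) * F.eval y)
      (-(Real.exp (-x) * p.eval x)) x := fun x => by
    convert! ((hasDerivAt_id' x).fun_neg.exp).mul (F.hasDerivAt x) using 1
    have h : F.eval x = p.eval x + F.derivative.eval x := by
      rw [hF]
      nth_rw 1 [sumIDeriv_eq_self_add p]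
      rw [eval_add]
    rw [h]
    ring
  have hB : 0 ≤ B := (abs_nonneg _).trans (hp 0 (by simpa using hR))
  have h := (convex_Icc (-R) R).norm_image_sub_le_of_norm_hasDerivWithin_le
    (f := fun y => Real.exp (-y) * F.eval y) (C := Real.exp R * B)
    (fun x _ => (hd x).hasDerivWithinAt) (fun x hx => by
      rw [Real.norm_eq_abs, abs_neg, abs_mul, Real.abs_exp]
      exact mul_le_mul (Real.exp_le_exp.2 (by linarith [hx.1])) (hp x (abs_le.2 ⟨hx.1, hx.2⟩))
        (abs_nonneg _) (Real.exp_nonneg _))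
    (show (0 : ℝ) ∈ Set.Icc (-R) R from ⟨by linarith, hR⟩)
    (show r ∈ Set.Icc (-R) R from abs_le.1 hr)
  rw [neg_zero, Real.exp_zero, one_mul, Real.norm_eq_abs, sub_zero, Real.norm_eq_abs] at h
  calc |Real.exp r * F.eval 0 - F.eval r|
      = Real.exp r * |Real.exp (-r) * F.eval r - F.eval 0| := by
        rw [← Real.abs_exp r, ← abs_mul, Real.abs_exp, mul_sub, ← mul_assoc, ← Real.exp_add,
          add_neg_cancel, Real.exp_zero, one_mul, abs_sub_comm]
    _ ≤ Real.exp R * (Real.exp R * B * R) :=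
        mul_le_mul (Real.exp_le_exp.2 (le_of_abs_le hr))
          (h.trans (mul_le_mul_of_nonneg_left hr (mul_nonneg (Real.exp_nonneg _) hB)))
          (abs_nonneg _) (Real.exp_nonneg _)
    _ = Real.exp (2 * R) * R * B := by rw [two_mul, Real.exp_add]; ring

theorem mahler_pow (f : ℤ[X]) (m : ℕ) :
    WirsingApprox.mahler (f ^ m) = WirsingApprox.mahler f ^ m := by
  induction m with
  | zero => simp [WirsingApprox.mahler]
  | succ m ih => rw [pow_succ, WirsingApprox.mahler_mul, ih, pow_succ]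

/-- **Hermite's integers.** -/
theorem exists_hermite (f : ℤ[X]) {d : ℕ} (hfd : f.natDegree ≤ d) {R : ℝ} (hR : 1 ≤ R) :
    ∃ A : ℝ, 1 ≤ A ∧ ∀ m : ℕ, 0 < m → ∃ N : ℤ, (m : ℤ) ∣ N - f.eval 0 ^ m ∧
      |(N : ℝ)| ≤ A ^ m * ((m - 1)! : ℝ) ^ d ∧
      ∃ g : ℤ[X], g.natDegree ≤ (d + 1) * m ∧ ∀ r : ℝ, aeval r f = 0 → |r| ≤ R →
        |N * Real.exp r - m * aeval r g| ≤ A ^ m / ((m - 1)! : ℝ) := by
  obtain ⟨B, hB⟩ := (isCompact_Icc (a := -R) (b := R)).exists_bound_of_continuousOn
    (f := fun x : ℝ => (f.map (Int.castRingHom ℝ)).eval x) (Polynomial.continuous _).continuousOn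
  set M := WirsingApprox.mahler f with hM
  have hM0 : 0 ≤ M := mahlerMeasure_nonneg _
  set A1 : ℝ := 2 ^ (2 * (d + 1)) * 2 ^ ((d + 1) * (d + 1)) * 2 ^ (d + 1) * (M + 1) with hA1
  set A2 : ℝ := Real.exp (2 * R) * R * (|B| + 1) with hA2
  refine ⟨max A1 A2 + 1, by
    have : 0 ≤ A1 := by positivity
    linarith [le_max_left A1 A2], fun m hm => ?_⟩
  set P : ℤ[X] := X ^ (m - 1) * f ^ m with hP
  obtain ⟨g0, -, hg0⟩ := eval_sumIDeriv_of_pos P hm
  have hF0 : (sumIDeriv P).eval 0 =
      ((m - 1)! : ℤ) * (f.eval 0 ^ m + m * g0.eval 0) := by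
    rw [hg0 0 (p' := f ^ m) (by rw [C_0, sub_zero, hP]), eval_pow, nsmul_eq_mul, nsmul_eq_mul,
      ← Nat.mul_factorial_pred hm.ne']
    push_cast
    ring
  set N : ℤ := f.eval 0 ^ m + m * g0.eval 0 with hN
  have hfac : (0 : ℝ) < ((m - 1)! : ℝ) := Nat.cast_pos.2 (Nat.factorial_pos _)
  obtain ⟨g1, hg1d, hg1⟩ := aeval_sumIDeriv ℝ P m
  refine ⟨N, ⟨g0.eval 0, by rw [hN]; ring⟩, ?_, g1, ?_, fun r hr hrR => ?_⟩
  · set D := (d + 1) * m with hD
    have hdeg : P.natDegree ≤ D := by
      refine natDegree_mul_le.trans ?_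
      rw [natDegree_X_pow, natDegree_pow, hD, Nat.succ_mul, mul_comm d]
      have := Nat.mul_le_mul_left m hfd
      omega
    have hcoeff : ∀ k, |(P.coeff k : ℝ)| ≤ 2 ^ D * (M + 1) ^ m := fun k => by
      have h := norm_coeff_le_choose_mul_mahlerMeasure k (P.map (Int.castRingHom ℂ))
      rw [coeff_map, eq_intCast, Complex.norm_intCast,
        natDegree_map_eq_of_injective (Int.castRingHom ℂ).injective_int] at h
      refine h.trans (mul_le_mul ?_ ?_ (mahlerMeasure_nonneg _) (by positivity))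
      · exact (Nat.cast_le.2 ((Nat.choose_le_two_pow _ _).trans
          (Nat.pow_le_pow_right two_pos hdeg))).trans_eq (by push_cast; rfl)
      · change WirsingApprox.mahler P ≤ _
        rw [hP, WirsingApprox.mahler_mul, mahler_pow, mahler_pow, ← hM]
        have hX : WirsingApprox.mahler (X : ℤ[X]) = 1 := by
          rw [WirsingApprox.mahler, Polynomial.map_X, ← sub_zero X, ← C_0, mahlerMeasure_X_sub_C,
            norm_zero, max_eq_left zero_le_one]
        rw [hX, one_pow, one_mul]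
        exact pow_le_pow_left₀ hM0 (by linarith) m
    have hsum : |(((sumIDeriv P).eval (0 : ℤ) : ℤ) : ℝ)| ≤
        (D + 1) * (D ! * (2 ^ D * (M + 1) ^ m)) := by
      rw [sumIDeriv_apply_of_le hdeg, eval_finsetSum, Int.cast_sum]
      refine (Finset.abs_sum_le_sum_abs _ _).trans ((Finset.sum_le_card_nsmul _ _
        ((D ! : ℝ) * (2 ^ D * (M + 1) ^ m)) fun k hk => ?_).trans_eq (by simp))
      rw [← coeff_zero_eq_eval_zero, coeff_iterate_derivative, zero_add, Nat.descFactorial_self,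
        nsmul_eq_mul, Int.cast_mul, Int.cast_natCast, abs_mul, Nat.abs_cast]
      exact mul_le_mul (Nat.cast_le.2 (Nat.factorial_le
        (Nat.lt_succ_iff.1 (Finset.mem_range.1 hk)))) (hcoeff k) (abs_nonneg _) (Nat.cast_nonneg _)
    rw [hF0, Int.cast_mul, Int.cast_natCast, abs_mul, Nat.abs_cast] at hsum
    have h1 : ((D ! : ℕ) : ℝ) ≤
        (2 ^ ((d + 1) * (d + 1))) ^ m * ((m : ℝ) * (m - 1)!) ^ (d + 1) := by
      rw [← pow_mul, ← Nat.cast_mul, Nat.mul_factorial_pred hm.ne']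
      exact_mod_cast factorial_mul_le (d + 1) m
    have h2 : (D : ℝ) + 1 ≤ 2 ^ D := by exact_mod_cast Nat.lt_two_pow_self
    have h3 : (m : ℝ) ^ (d + 1) ≤ (2 ^ (d + 1)) ^ m := by
      rw [← pow_mul, mul_comm, pow_mul]
      exact pow_le_pow_left₀ (Nat.cast_nonneg m) (by exact_mod_cast Nat.lt_two_pow_self.le) _
    refine le_trans (le_of_mul_le_mul_left (hsum.trans ?_) hfac)
      (mul_le_mul_of_nonneg_right (pow_le_pow_left₀ (show (0 : ℝ) ≤ A1 by positivity)
        (by linarith [le_max_left A1 A2]) m) (pow_nonneg hfac.le _))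
    calc ((D : ℝ) + 1) * ((D ! : ℝ) * (2 ^ D * (M + 1) ^ m))
        ≤ 2 ^ D * ((2 ^ ((d + 1) * (d + 1))) ^ m * ((2 ^ (d + 1)) ^ m * ((m - 1)! : ℝ) ^ (d + 1))
            * (2 ^ D * (M + 1) ^ m)) := by
          refine mul_le_mul h2 (mul_le_mul_of_nonneg_right (h1.trans ?_) (by positivity))
            (by positivity) (by positivity)
          rw [mul_pow]
          gcongr
      _ = ((m - 1)! : ℝ) * (A1 ^ m * ((m - 1)! : ℝ) ^ d) := by
          rw [hA1, hD, mul_pow, mul_pow, mul_pow,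
            pow_mul (2 : ℝ) (d + 1) m, pow_succ ((m - 1)! : ℝ) d]
          generalize (2 : ℝ) = t
          ring
  · refine hg1d.trans ((Nat.sub_le _ _).trans (natDegree_mul_le.trans ?_))
    rw [natDegree_X_pow, natDegree_pow, Nat.succ_mul, mul_comm d]
    have := Nat.mul_le_mul_left m hfd
    omega
  · have hdvd : (X - C r) ^ m ∣ P.map (algebraMap ℤ ℝ) := by
      rw [hP, Polynomial.map_mul, Polynomial.map_pow, Polynomial.map_pow]
      refine dvd_mul_of_dvd_right (pow_dvd_pow_of_dvd (dvd_iff_isRoot.2 ?_) m) _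
      rwa [IsRoot, eval_map, ← aeval_def]
    have hFr := hg1 r hdvd
    rw [aeval_sumIDeriv_eq_eval, algebraMap_int_eq, nsmul_eq_mul,
      ← Nat.mul_factorial_pred hm.ne'] at hFr
    set PR := P.map (Int.castRingHom ℝ) with hPR
    have hbound : ∀ x, |x| ≤ R → |PR.eval x| ≤ R ^ (m - 1) * (|B| + 1) ^ m := fun x hx => by
      rw [hPR, hP, Polynomial.map_mul, Polynomial.map_pow, Polynomial.map_pow, Polynomial.map_X,
        eval_mul, eval_pow, eval_pow, eval_X, abs_mul, abs_pow, abs_pow]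
      refine mul_le_mul (pow_le_pow_left₀ (abs_nonneg _) hx _)
        (pow_le_pow_left₀ (abs_nonneg _) ?_ _)
        (by positivity) (by positivity)
      have := hB x (abs_le.1 hx)
      rw [Real.norm_eq_abs] at this
      linarith [le_abs_self B]
    have h := abs_exp_mul_sub_le PR (by linarith) hbound hrR
    rw [hPR] at h
    rw [hFr, sumIDeriv_map, show (0 : ℝ) = ((0 : ℤ) : ℝ) by norm_num, eval_intCast_map,
      Int.cast_id, hF0, eq_intCast] at h
    push_cast at h ⊢
    rw [le_div_iff₀ hfac, ← abs_of_pos hfac, ← abs_mul]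
    refine le_of_eq_of_le (congrArg _ (by ring)) (h.trans ?_)
    calc Real.exp (2 * R) * R * (R ^ (m - 1) * (|B| + 1) ^ m)
        ≤ Real.exp (2 * R) ^ m * (R ^ m * (|B| + 1) ^ m) := by
          rw [mul_assoc, ← mul_assoc R, mul_pow_sub_one hm.ne']
          exact mul_le_mul_of_nonneg_right
            (le_self_pow₀ (Real.one_le_exp (by linarith)) hm.ne') (by positivity)
      _ = A2 ^ m := by rw [hA2, mul_pow, mul_pow]; ring
      _ ≤ (max A1 A2 + 1) ^ m :=
          pow_le_pow_left₀ (by positivity) (by linarith [le_max_right A1 A2]) m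

end FA.ExpMeasure
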