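import Fermat.Agent.ExpMeasure.Forms
import Fermat.Agent.KoksmaClass.Dominant

/-!
# The transcendence measure of `e`

The case `r j = j` of the measure for linear forms in rational powers of `e`.
-/

set_option autoImplicit false

noncomputable section

open Polynomial Filter FA.MahlerClass
open scoped Nat Topology

namespace FA.ExpMeasure

/-- **Popken's measure**: `|P(e)| ≫ H(P) ^ (-n - ε)`. -/
theorem exists_measure (n : ℕ) {ε : ℝ} (hε : 0 < ε) :
    ∃ c : ℝ, 0 < c ∧ ∀ p : Fin (n + 1) → ℤ, p ≠ 0 →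
      c * ‖p‖ ^ (-((n : ℝ) + ε)) ≤ |polyEval p (Real.exp 1)| := by
  obtain ⟨c, hc, h⟩ := exists_measure_forms (fun j : Fin (n + 1) => ((j : ℕ) : ℚ))
    (fun i j hij => Fin.ext (Nat.cast_injective hij)) hε
  refine ⟨c, hc, fun p hp => ?_⟩
  simpa [polyEval, ← Real.exp_nat_mul] using h p hp

theorem polyEval_exp_ne_zero {n : ℕ} {p : Fin (n + 1) → ℤ} (hp : p ≠ 0) :
    polyEval p (Real.exp 1) ≠ 0 := fun h => by
  obtain ⟨c, hc, hb⟩ := exists_measure n (ε := 1) one_pos
  have h1 := hb p hp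
  rw [h, abs_zero] at h1
  exact h1.not_gt (mul_pos hc (Real.rpow_pos_of_pos (norm_pos_iff.2 hp) _))

/-- **`w n (e) = n`.** -/
theorem mahlerExp_exp_one {n : ℕ} (hn : 0 < n) :
    mahlerExp n (Real.exp 1) = ((n : ℝ) : EReal) := by
  refine le_antisymm (mahlerExp_le_iff.2 fun w hw => ?_)
    (le_mahlerExp_of_forall_ne_zero (fun _ => polyEval_exp_ne_zero) hn)
  by_contra hinf
  obtain ⟨c, hc, hb⟩ := exists_measure n (ε := (w - n) / 2) (by linarith)
  obtain ⟨R, hR⟩ := eventually_atTop.1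
    ((tendsto_rpow_neg_atTop (show 0 < (w - n) / 2 by linarith)).eventually_lt_const hc)
  obtain ⟨p, hp, hpR⟩ := Transference.exists_norm_gt hinf R
  have hp0 : 0 < ‖p‖ := norm_pos_iff.2 (ne_zero_of_mem hp)
  have h := (hb p (ne_zero_of_mem hp)).trans hp.2
  have h2 : ‖p‖ ^ (-w) < c * ‖p‖ ^ (-((n : ℝ) + (w - n) / 2)) := by
    rw [show -w = -((w - n) / 2) + -((n : ℝ) + (w - n) / 2) by ring, Real.rpow_add hp0]
    exact mul_lt_mul_of_pos_right (hR _ hpR.le) (Real.rpow_pos_of_pos hp0 _)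
  linarith

theorem transcendental_exp_one : Transcendental ℤ (Real.exp 1) := fun ⟨f, hf, hf0⟩ => by
  refine polyEval_exp_ne_zero (n := f.natDegree) (p := fun j => f.coeff (j : ℕ))
    (fun h => hf (leadingCoeff_eq_zero.1 (congrFun h (Fin.last _)))) ?_
  rw [polyEval, Fin.sum_univ_eq_sum_range (fun j => (f.coeff j : ℝ) * Real.exp 1 ^ j)]
  rw [aeval_eq_sum_range] at hf0
  simpa [zsmul_eq_mul] using hf0

/-- `e` is an `S`-number. -/
theorem isS_exp_one : IsS (Real.exp 1) :=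
  ⟨not_isA_of_transcendental transcendental_exp_one, 1, fun n hn => by
    rw [mahlerExp_exp_one hn, one_mul]⟩

/-- `w* n (e) = n`. -/
theorem koksmaExp_exp_one {n : ℕ} (hn : 0 < n) :
    KoksmaClass.koksmaExp n (Real.exp 1) = ((n : ℝ) : EReal) :=
  KoksmaClass.koksmaExp_eq_of_mahlerExp_eq hn
    (KoksmaClass.notAlgebraic_of_transcendental transcendental_exp_one n) (mahlerExp_exp_one hn)

end FA.ExpMeasure
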