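import Fermat.Agent.ExpMeasure.Main
import Fermat.Agent.MahlerClass.Dependence
import Mathlib.NumberTheory.Transcendental.Liouville.LiouvilleNumber

/-!
# Rational powers of `e` and `U`-numbers
-/

set_option autoImplicit false

noncomputable section

open Polynomial FA.MahlerClass

namespace FA.ExpMeasure

/-- A nonzero polynomial relation makes two numbers dependent. -/
theorem not_algebraicIndependent_pair {x y : ℝ} (P : MvPolynomial (Fin 2) ℤ) (hP : P ≠ 0)
    (h : MvPolynomial.aeval ![x, y] P = 0) : ¬AlgebraicIndependent ℤ ![x, y] := fun hi =>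
  hP (hi.eq_zero_of_aeval_eq_zero P h)

/-- `S`-numbers and `U`-numbers are algebraically independent. -/
theorem algebraicIndependent_of_isS_of_isU {x y : ℝ} (hx : Transcendental ℤ x) (hS : IsS x)
    (hU : IsU y) : AlgebraicIndependent ℤ ![x, y] :=
  by_contra fun h => not_isU_of_isS hS (isU_of_dependent hx h hU)

theorem transcendental_exp_int {a : ℤ} (ha : a ≠ 0) : Transcendental ℤ (Real.exp a) := by
  have h := fun k (hk : 0 < k) => transcendental_exp_one.pow (n := k) hk
  rcases Int.eq_nat_or_neg a with ⟨k, rfl | rfl⟩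
  · rw [Int.cast_natCast, ← mul_one ((k : ℝ)), Real.exp_nat_mul]
    exact h k (Nat.pos_of_ne_zero (by simpa using ha))
  · rw [Int.cast_neg, Int.cast_natCast, Real.exp_neg, ← mul_one ((k : ℝ)), Real.exp_nat_mul]
    exact fun hi => h k (Nat.pos_of_ne_zero (by simpa using ha)) (IsAlgebraic.inv_iff.1 hi)

/-- `(e ^ r) ^ den = e ^ num`. -/
theorem exp_ratCast_pow_den (r : ℚ) : Real.exp r ^ r.den = Real.exp (r.num : ℝ) := by
  rw [← Real.exp_nat_mul, mul_comm, Rat.cast_def, div_mul_cancel₀]
  exact Nat.cast_ne_zero.2 r.den_ne_zero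

theorem transcendental_exp_rat {r : ℚ} (hr : r ≠ 0) : Transcendental ℤ (Real.exp r) := fun h =>
  transcendental_exp_int (Rat.num_ne_zero.2 hr) (exp_ratCast_pow_den r ▸ h.pow r.den)

/-- `e ^ r` depends on `e`. -/
theorem dependent_exp_rat (r : ℚ) :
    ¬AlgebraicIndependent ℤ ![Real.exp 1, Real.exp r] := by
  have hden := r.den_pos
  rcases Int.eq_nat_or_neg r.num with ⟨k, hk | hk⟩
  · refine not_algebraicIndependent_pair
      (MvPolynomial.X 1 ^ r.den - MvPolynomial.X 0 ^ k) (fun h => ?_) ?_
    · have h' := congrArg (MvPolynomial.eval ![(1 : ℤ), 0]) h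
      simp [zero_pow hden.ne'] at h'
    · simp only [map_sub, map_pow, MvPolynomial.aeval_X, Matrix.cons_val_zero,
        Matrix.cons_val_one, exp_ratCast_pow_den, hk]
      rw [← Real.exp_nat_mul, mul_one, Int.cast_natCast, sub_self]
  · refine not_algebraicIndependent_pair
      (MvPolynomial.X 1 ^ r.den * MvPolynomial.X 0 ^ k - 1) (fun h => ?_) ?_
    · have h' := congrArg (MvPolynomial.eval ![(1 : ℤ), 0]) h
      simp [zero_pow hden.ne'] at h'
    · simp only [map_sub, map_mul, map_pow, map_one, MvPolynomial.aeval_X, Matrix.cons_val_zero,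
        Matrix.cons_val_one, exp_ratCast_pow_den, hk]
      rw [← Real.exp_nat_mul, mul_one, ← Real.exp_add, Int.cast_neg, Int.cast_natCast,
        neg_add_cancel, Real.exp_zero, sub_self]

/-- `e ^ r` is an `S`-number. -/
theorem isS_exp_rat {r : ℚ} (hr : r ≠ 0) : IsS (Real.exp r) :=
  isS_of_dependent transcendental_exp_one (transcendental_exp_rat hr) (dependent_exp_rat r)
    isS_exp_one

/-- Sums and products of algebraically independent numbers are transcendental. -/
theorem transcendental_add_mul {x y : ℝ} (h : AlgebraicIndependent ℤ ![x, y]) :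
    Transcendental ℤ (x + y) ∧ Transcendental ℤ (x * y) := by
  constructor
  · rintro ⟨Q, hQ, hQ0⟩
    refine not_algebraicIndependent_pair
      (Polynomial.aeval (MvPolynomial.X 0 + MvPolynomial.X 1 : MvPolynomial (Fin 2) ℤ) Q)
      (fun he => hQ ?_) (by rw [← Polynomial.aeval_algHom_apply]; simpa using hQ0) h
    have h' := congrArg (MvPolynomial.aeval ![(X : ℤ[X]), 0]) he
    rw [← Polynomial.aeval_algHom_apply, map_zero] at h'
    simpa using h'
  · rintro ⟨Q, hQ, hQ0⟩
    refine not_algebraicIndependent_pair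
      (Polynomial.aeval (MvPolynomial.X 0 * MvPolynomial.X 1 : MvPolynomial (Fin 2) ℤ) Q)
      (fun he => hQ ?_) (by rw [← Polynomial.aeval_algHom_apply]; simpa using hQ0) h
    have h' := congrArg (MvPolynomial.aeval ![(X : ℤ[X]), 1]) he
    rw [← Polynomial.aeval_algHom_apply, map_zero] at h'
    simpa using h'

end FA.ExpMeasure
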