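import Fermat.Agent.ExpMeasure.Forms
import Fermat.Agent.Root.SummaryTransference

/-!
# Simultaneous approximation to rational powers of `e`
-/

set_option autoImplicit false

noncomputable section

open Filter

namespace FA.ExpMeasure

/-- The forms in `e ^ r i`, `1` are not very small. -/
theorem finite_formSet {d : ℕ} {r : Fin d → ℚ} (hr : Function.Injective r)
    (h0 : ∀ i, r i ≠ 0) {w : ℝ} (hw : (d : ℝ) < w) :
    {m : Fin d → ℤ | m ≠ 0 ∧ ∃ n : ℤ,
      |∑ i, (m i : ℝ) * Real.exp (r i) + n| ≤ ‖m‖ ^ (-w)}.Finite := by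
  have hinj : Function.Injective (Fin.cons (0 : ℚ) r : Fin (d + 1) → ℚ) :=
    Fin.cons_injective_iff.2 ⟨fun ⟨i, hi⟩ => h0 i hi, hr⟩
  obtain ⟨c, hc, hb⟩ := exists_measure_forms _ hinj (ε := (w - d) / 2) (by linarith)
  set S := ∑ i, |Real.exp (r i)| + 1 with hS
  have hS1 : 1 ≤ S := le_add_of_nonneg_left (Finset.sum_nonneg fun i _ => abs_nonneg _)
  have hd0 : (0 : ℝ) ≤ d := Nat.cast_nonneg d
  obtain ⟨R, hR⟩ := eventually_atTop.1
    (((tendsto_rpow_neg_atTop (show 0 < (w - d) / 2 by linarith)).const_mul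
      (S ^ ((d : ℝ) + (w - d) / 2))).eventually_lt_const
        (show S ^ ((d : ℝ) + (w - d) / 2) * 0 < c by simpa using hc))
  by_contra hinf
  obtain ⟨m, ⟨hm0, n, hm⟩, hmR⟩ := Transference.exists_norm_gt hinf R
  have hm1 := Transference.one_le_norm_intVector hm0
  have hval : |∑ i, (m i : ℝ) * Real.exp (r i) + n| ≤ 1 :=
    hm.trans (Real.rpow_le_one_of_one_le_of_nonpos hm1 (by linarith))
  have hn : |(n : ℝ)| ≤ S * ‖m‖ := by
    have hsum : |∑ i, (m i : ℝ) * Real.exp (r i)| ≤ (∑ i, |Real.exp (r i)|) * ‖m‖ := by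
      refine (Finset.abs_sum_le_sum_abs _ _).trans ?_
      rw [Finset.sum_mul]
      refine Finset.sum_le_sum fun i _ => ?_
      rw [abs_mul, mul_comm]
      refine mul_le_mul_of_nonneg_left ?_ (abs_nonneg _)
      rw [← Int.norm_eq_abs]
      exact norm_le_pi_norm m i
    have h := abs_sub (∑ i, (m i : ℝ) * Real.exp (r i) + n) (∑ i, (m i : ℝ) * Real.exp (r i))
    rw [add_sub_cancel_left] at h
    rw [hS, add_mul, one_mul]
    linarith
  set a : Fin (d + 1) → ℤ := Fin.cons n m with ha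
  have ha0 : a ≠ 0 := fun h => hm0 (funext fun i => by simpa [ha] using congrFun h i.succ)
  have han : ‖a‖ ≤ S * ‖m‖ := (pi_norm_le_iff_of_nonneg (by positivity)).2 (Fin.cases
    (by rw [ha, Fin.cons_zero, Int.norm_eq_abs]; exact hn) fun i => by
      rw [ha, Fin.cons_succ]
      exact (norm_le_pi_norm m i).trans (le_mul_of_one_le_left (norm_nonneg _) hS1))
  have hb' := hb a ha0
  rw [show (∑ j, (a j : ℝ) * Real.exp ((Fin.cons (0 : ℚ) r : Fin (d + 1) → ℚ) j)) =
      ∑ i, (m i : ℝ) * Real.exp (r i) + n by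
    rw [Fin.sum_univ_succ, ha]; simp [add_comm]] at hb'
  have ha1 : 1 ≤ ‖a‖ := Transference.one_le_norm_intVector ha0
  have h1 : c * (S * ‖m‖) ^ (-((d : ℝ) + (w - d) / 2)) ≤ ‖m‖ ^ (-w) :=
    (mul_le_mul_of_nonneg_left (Real.rpow_le_rpow_of_nonpos (by linarith) han (by linarith))
      hc.le).trans (hb'.trans hm)
  rw [Real.mul_rpow (by linarith) (norm_nonneg _),
    show -w = -((w - d) / 2) + -((d : ℝ) + (w - d) / 2) by ring,
    Real.rpow_add (by linarith : 0 < ‖m‖), ← mul_assoc] at h1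
  have h2 := le_of_mul_le_mul_right h1 (Real.rpow_pos_of_pos (by linarith) _)
  rw [Real.rpow_neg (by linarith), ← div_eq_mul_inv,
    div_le_iff₀ (Real.rpow_pos_of_pos (by linarith) _), mul_comm (‖m‖ ^ _)] at h2
  exact (hR _ hmR.le).not_ge h2

/-- **Not very well approximable.** -/
theorem finite_simultaneous {d : ℕ} (hd : 0 < d) {r : Fin d → ℚ} (hr : Function.Injective r)
    (h0 : ∀ i, r i ≠ 0) {w : ℝ} (hw : 1 / (d : ℝ) < w) :
    {q : ℕ | 0 < q ∧ ∃ p : Fin d → ℤ,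
      ∀ i, |(q : ℝ) * Real.exp (r i) - p i| ≤ (q : ℝ) ^ (-w)}.Finite := by
  by_contra hinf
  obtain ⟨v, hv, hinf'⟩ :=
    (Transference.Summary.very_well_approximable_iff hd fun i => Real.exp (r i)).1 ⟨w, hw, hinf⟩
  exact hinf' (finite_formSet hr h0 hv)

end FA.ExpMeasure
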